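import Fermat.Prelude.Def_AlgebraicGeometry_NeronModelPropertyBundleCarrier
import Fermat.Agent.Jac.Functor

/-!
# Affine points of schemes over a field

`AlgFun.RepScheme` is a scheme whose affine points are the values of a functor.
-/

set_option autoImplicit false

universe u

open CategoryTheory AlgebraicGeometry NeronModelInfra
open scoped TensorProduct

namespace Fermat.Agent.Jac

/-- The structure map of `Spec A` over `k`. -/
noncomputable def specTo (k A : Type u) [CommRing k] [CommRing A] [Algebra k A] :
    Spec (CommRingCat.of A) ⟶ Spec (CommRingCat.of k) :=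
  Spec.map (CommRingCat.ofHom (algebraMap k A))

/-- The morphism of test schemes given by a map of algebras. -/
noncomputable def specMapOver {k A A' : Type u} [CommRing k] [CommRing A] [Algebra k A]
    [CommRing A'] [Algebra k A'] (φ : A →ₐ[k] A') :
    SchemeHomOver (specTo k A') (specTo k A) :=
  ⟨Spec.map (CommRingCat.ofHom φ.toRingHom), by
    rw [specTo, specTo, ← Spec.map_comp, ← CommRingCat.ofHom_comp]
    congr 2
    exact φ.comp_algebraMap⟩

/-- A scheme whose affine points are the values of a group functor. -/
structure AlgFun.RepScheme {k : Type u} [Field k] (F : AlgFun k) where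
  J : Scheme.{u}
  toBase : J ⟶ Spec (CommRingCat.of k)
  pts : ∀ (A : Type u) [CommRing A] [Algebra k A], SchemeHomOver (specTo k A) toBase ≃ F.obj A
  pts_natural : ∀ (A A' : Type u) [CommRing A] [Algebra k A] [CommRing A'] [Algebra k A']
    (φ : A →ₐ[k] A') (g : SchemeHomOver (specTo k A) toBase),
    pts A' ⟨(specMapOver φ).1 ≫ g.1, by rw [Category.assoc, g.2, (specMapOver φ).2]⟩ =
      F.map φ (pts A g)

section

variable {k A A' A'' : Type u} [CommRing k] [CommRing A] [Algebra k A]
    [CommRing A'] [Algebra k A'] [CommRing A''] [Algebra k A'']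

theorem specMapOver_comp (φ : A →ₐ[k] A') (ψ : A' →ₐ[k] A'') :
    (specMapOver (ψ.comp φ)).1 = (specMapOver ψ).1 ≫ (specMapOver φ).1 := by
  rw [specMapOver, specMapOver, specMapOver, ← Spec.map_comp, ← CommRingCat.ofHom_comp]
  rfl

theorem specMapOver_id : (specMapOver (AlgHom.id k A)).1 = 𝟙 _ := by
  rw [specMapOver, ← Spec.map_id]
  rfl

/-- The algebra map underlying a morphism of affine test schemes. -/
noncomputable def algOf (g : SchemeHomOver (specTo k A') (specTo k A)) : A →ₐ[k] A' :=
  AlgHom.mk (Spec.preimage g.1).hom fun r => by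
    have h : CommRingCat.ofHom (algebraMap k A) ≫ Spec.preimage g.1 =
        CommRingCat.ofHom (algebraMap k A') := by
      apply Spec.map_injective
      rw [Spec.map_comp, Spec.map_preimage]
      exact g.2
    exact congr($(h).hom r)

theorem specMapOver_algOf (g : SchemeHomOver (specTo k A') (specTo k A)) :
    specMapOver (algOf g) = g :=
  Subtype.ext (Spec.map_preimage g.1)

theorem algOf_specMapOver (φ : A →ₐ[k] A') : algOf (specMapOver φ) = φ := by
  have h : Spec.preimage (specMapOver φ).1 = CommRingCat.ofHom φ.toRingHom :=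
    Spec.preimage_map _
  exact AlgHom.ext fun r => congr($(h).hom r)

theorem algOf_comp (g : SchemeHomOver (specTo k A') (specTo k A))
    (g' : SchemeHomOver (specTo k A'') (specTo k A')) (h : (g'.1 ≫ g.1) ≫ specTo k A =
      specTo k A'') :
    algOf ⟨g'.1 ≫ g.1, h⟩ = (algOf g').comp (algOf g) := by
  conv_rhs => rw [← algOf_specMapOver ((algOf g').comp (algOf g))]
  congr 1
  apply Subtype.ext
  change g'.1 ≫ g.1 = _
  rw [specMapOver_comp, specMapOver_algOf, specMapOver_algOf]

end

end Fermat.Agent.Jac
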