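import Fermat.Agent.Jac.Represent.PointVal

/-!
# Gluing translates of a chart

`glueData` glues one copy of the chart for each translate.
-/

set_option autoImplicit false

universe u

open CategoryTheory CategoryTheory.Limits AlgebraicGeometry NeronModelInfra
open scoped TensorProduct

namespace Fermat.Agent.Jac.AlgFun

variable {k : Type u} [Field k] {F : AlgFun k}

namespace Chart

/-- An element translated by a rational one. -/
def shiftVal {A : Type u} [CommRing A] [Algebra k A] (x : F.obj A) (a : F.obj k) : F.obj A :=
  x * F.map (Algebra.ofId k A) a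

theorem map_shiftVal {A B : Type u} [CommRing A] [Algebra k A] [CommRing B] [Algebra k B]
    (φ : A →ₐ[k] B) (x : F.obj A) (a : F.obj k) :
    F.map φ (shiftVal x a) = shiftVal (F.map φ x) a := by
  rw [shiftVal, shiftVal, map_mul, F.map_map]
  congr 2
  rw [show φ.comp (Algebra.ofId k A) = Algebra.ofId k B from Subsingleton.elim _ _]

variable (c : F.Chart)

/-- The universal element of a translate of the chart. -/
def univAt (a : F.obj k) : F.obj c.Q :=
  c.univ * (F.map (Algebra.ofId k c.Q) a)⁻¹

theorem shiftVal_univAt (a : F.obj k) : shiftVal (c.univAt a) a = c.univ :=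
  inv_mul_cancel_right _ _

theorem mem_shiftVal_map_univAt (a : F.obj k) {A : Type u} [CommRing A] [Algebra k A]
    (φ : c.Q →ₐ[k] A) : c.mem A (shiftVal (F.map φ (c.univAt a)) a) := by
  rw [← map_shiftVal, shiftVal_univAt]
  exact c.mem_map φ _ c.univ_mem

theorem map_univAt_injective (a : F.obj k) {A : Type u} [CommRing A] [Algebra k A]
    (φ ψ : c.Q →ₐ[k] A) (h : F.map φ (c.univAt a) = F.map ψ (c.univAt a)) : φ = ψ := by
  have h' := congrArg (fun x => shiftVal x a) h
  simp only [← map_shiftVal, shiftVal_univAt] at h'
  exact (c.existsUnique A _ (c.mem_map φ _ c.univ_mem)).unique rfl h'.symm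

/-- The values of the points of a translate of the chart. -/
noncomputable def chartVal (a : F.obj k) : F.PointVal (specTo k c.Q) where
  val A _ _ h := F.map (algOf h) (c.univAt a)
  natural A A' _ _ _ _ φ g := by
    rw [F.map_map]
    congr 2
    exact (algOf_comp g (specMapOver φ) _).trans (by rw [algOf_specMapOver])
  injective A _ _ g g' h := by
    rw [← specMapOver_algOf g, ← specMapOver_algOf g', c.map_univAt_injective a _ _ h]

theorem mem_chartVal (a : F.obj k) (A : Type u) [CommRing A] [Algebra k A]
    (h : SchemeHomOver (specTo k A) (specTo k c.Q)) :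
    c.mem A (shiftVal ((c.chartVal a).val A h) a) :=
  c.mem_shiftVal_map_univAt a _

theorem exists_chartVal_eq (a : F.obj k) {A : Type u} [CommRing A] [Algebra k A] (x : F.obj A)
    (hx : c.mem A (shiftVal x a)) : ∃ h, (c.chartVal a).val A h = x := by
  obtain ⟨φ, hφ, -⟩ := c.existsUnique A _ hx
  refine ⟨specMapOver φ, ?_⟩
  change F.map (algOf _) _ = x
  rw [algOf_specMapOver]
  have h : shiftVal (F.map φ (c.univAt a)) a = shiftVal x a := by
    rw [← map_shiftVal, shiftVal_univAt]
    exact hφ
  exact mul_right_cancel h

/-- The locus of the chart as an open subscheme. -/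
noncomputable def locusOpens {A : Type u} [CommRing A] [Algebra k A] (x : F.obj A) :
    (Spec (CommRingCat.of A)).Opens :=
  ⟨c.locus x, c.isOpen_locus x⟩

theorem forall_mem_locusOpens_iff {A B : Type u} [CommRing A] [Algebra k A] [CommRing B]
    [Algebra k B] (x : F.obj A) (q : SchemeHomOver (specTo k B) (specTo k A)) :
    (∀ z, q.1 z ∈ c.locusOpens x) ↔ c.mem B (F.map (algOf q) x) := by
  rw [← c.locus_eq_univ_iff]
  conv_lhs => rw [← specMapOver_algOf q]
  exact forall_congr' fun z => (c.locus_map (algOf q) x z).symm

variable {ι : Type u} (a : ι → F.obj k)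

/-- The part of the translate `i` inside the translate `j`. -/
noncomputable def overlap (i j : ι) : (Spec (CommRingCat.of c.Q)).Opens :=
  c.locusOpens (shiftVal (c.univAt (a i)) (a j))

/-- The inclusion of the overlap. -/
noncomputable def overlapIncl (i j : ι) :
    SchemeHomOver ((c.overlap a i j).ι ≫ specTo k c.Q) (specTo k c.Q) :=
  ⟨(c.overlap a i j).ι, rfl⟩

theorem mem_of_lands (i j : ι) {A : Type u} [CommRing A] [Algebra k A]
    (h : SchemeHomOver (specTo k A) (specTo k c.Q)) (hl : ∀ z, h.1 z ∈ c.overlap a i j) :
    c.mem A (shiftVal ((c.chartVal (a i)).val A h) (a j)) := by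
  have := (c.forall_mem_locusOpens_iff _ h).1 hl
  rwa [map_shiftVal] at this

theorem lands_of_mem (i j : ι) {A : Type u} [CommRing A] [Algebra k A]
    (h : SchemeHomOver (specTo k A) (specTo k c.Q))
    (hm : c.mem A (shiftVal ((c.chartVal (a i)).val A h) (a j))) (z) :
    h.1 z ∈ c.overlap a i j :=
  (c.forall_mem_locusOpens_iff _ h).2 (by rwa [map_shiftVal]) z

theorem mem_incl (i j : ι) {A : Type u} [CommRing A] [Algebra k A]
    (g : SchemeHomOver (specTo k A) ((c.overlap a i j).ι ≫ specTo k c.Q)) :
    c.mem A (shiftVal ((c.chartVal (a i)).val A (overComp g (c.overlapIncl a i j))) (a j)) :=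
  c.mem_of_lands a i j _ fun z => (g.1 z).2

theorem range_subset_overlap (i j : ι) {T : Scheme.{u}} {t : T ⟶ Spec (CommRingCat.of k)}
    (h : SchemeHomOver t (specTo k c.Q))
    (hm : ∀ (A : Type u) [CommRing A] [Algebra k A] (g : SchemeHomOver (specTo k A) t),
      c.mem A (shiftVal ((c.chartVal (a i)).val A (overComp g h)) (a j))) :
    Set.range h.1 ⊆ Set.range (c.overlap a i j).ι := by
  rw [Scheme.Opens.range_ι]
  rintro _ ⟨p, rfl⟩
  obtain ⟨A, _, _, g, _, z, rfl⟩ := exists_affine_point t p
  exact c.lands_of_mem a i j _ (hm A g) z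

/-- The overlap of two translates maps to the second compatibly with the values. -/
theorem exists_toChart (i j : ι) :
    ∃ τ : SchemeHomOver ((c.overlap a i j).ι ≫ specTo k c.Q) (specTo k c.Q),
      ∀ (A : Type u) [CommRing A] [Algebra k A]
        (g : SchemeHomOver (specTo k A) ((c.overlap a i j).ι ≫ specTo k c.Q)),
        (c.chartVal (a j)).val A (overComp g τ) =
          (c.chartVal (a i)).val A (overComp g (c.overlapIncl a i j)) :=
  (c.chartVal (a j)).exists_hom (fun A _ _ g => (c.chartVal (a i)).val A
      (overComp g (c.overlapIncl a i j)))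
    (fun A A' _ _ _ _ φ g => by rw [overComp_assoc, (c.chartVal (a i)).natural])
    fun A _ _ g => c.exists_chartVal_eq (a j) _ (c.mem_incl a i j g)

/-- The change of translate, as a map to the chart. -/
noncomputable def toChart (i j : ι) :
    SchemeHomOver ((c.overlap a i j).ι ≫ specTo k c.Q) (specTo k c.Q) :=
  (c.exists_toChart a i j).choose

theorem toChart_val (i j : ι) {A : Type u} [CommRing A] [Algebra k A]
    (g : SchemeHomOver (specTo k A) ((c.overlap a i j).ι ≫ specTo k c.Q)) :
    (c.chartVal (a j)).val A (overComp g (c.toChart a i j)) =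
      (c.chartVal (a i)).val A (overComp g (c.overlapIncl a i j)) :=
  (c.exists_toChart a i j).choose_spec A g

theorem toChart_range (i j : ι) :
    Set.range (c.toChart a i j).1 ⊆ Set.range (c.overlap a j i).ι :=
  c.range_subset_overlap a j i _ fun A _ _ g => by
    rw [toChart_val]
    exact c.mem_chartVal (a i) A _

/-- The change of translate, between overlaps. -/
noncomputable def transition (i j : ι) :
    (c.overlap a i j).toScheme ⟶ (c.overlap a j i).toScheme :=
  IsOpenImmersion.lift (c.overlap a j i).ι (c.toChart a i j).1 (c.toChart_range a i j)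

theorem transition_ι (i j : ι) :
    c.transition a i j ≫ (c.overlap a j i).ι = (c.toChart a i j).1 :=
  IsOpenImmersion.lift_fac _ _ _

theorem overlap_self (i : ι) : c.overlap a i i = ⊤ :=
  TopologicalSpace.Opens.ext <| Set.eq_univ_of_forall <| (c.locus_eq_univ_iff _).2 <| by
    rw [shiftVal_univAt]
    exact c.univ_mem

theorem toChart_self (i : ι) : c.toChart a i i = c.overlapIncl a i i :=
  (c.chartVal (a i)).hom_ext _ _ fun _ _ _ g => c.toChart_val a i i g

/-- The structure map of a triple overlap. -/
noncomputable def tripleTo (i j l : ι) :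
    pullback (c.overlap a i j).ι (c.overlap a i l).ι ⟶ Spec (CommRingCat.of k) :=
  pullback.fst _ _ ≫ (c.overlap a i j).ι ≫ specTo k c.Q

/-- A triple overlap inside the chart `i`. -/
noncomputable def tripleIncl (i j l : ι) :
    SchemeHomOver (c.tripleTo a i j l) (specTo k c.Q) :=
  ⟨pullback.fst _ _ ≫ (c.overlap a i j).ι, Category.assoc _ _ _⟩

/-- A triple overlap mapped to the chart `j`. -/
noncomputable def tripleToChart (i j l : ι) :
    SchemeHomOver (c.tripleTo a i j l) (specTo k c.Q) :=
  ⟨pullback.fst _ _ ≫ (c.toChart a i j).1,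
    (Category.assoc _ _ _).trans (congrArg (pullback.fst _ _ ≫ ·) (c.toChart a i j).2)⟩

theorem tripleToChart_val (i j l : ι) {A : Type u} [CommRing A] [Algebra k A]
    (g : SchemeHomOver (specTo k A) (c.tripleTo a i j l)) :
    (c.chartVal (a j)).val A (overComp g (c.tripleToChart a i j l)) =
      (c.chartVal (a i)).val A (overComp g (c.tripleIncl a i j l)) := by
  let p : SchemeHomOver (c.tripleTo a i j l) ((c.overlap a i j).ι ≫ specTo k c.Q) :=
    ⟨pullback.fst _ _, rfl⟩
  have e1 : overComp g (c.tripleToChart a i j l) = overComp (overComp g p) (c.toChart a i j) :=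
    Subtype.ext (Category.assoc _ _ _).symm
  have e2 : overComp g (c.tripleIncl a i j l) = overComp (overComp g p) (c.overlapIncl a i j) :=
    Subtype.ext (Category.assoc _ _ _).symm
  rw [e1, e2, toChart_val]

theorem tripleToChart_range (i j l : ι) :
    Set.range (c.tripleToChart a i j l).1 ⊆ Set.range (c.overlap a j l).ι :=
  c.range_subset_overlap a j l _ fun A _ _ g => by
    rw [tripleToChart_val]
    refine c.mem_of_lands a i l _ fun z => ?_
    have h : (c.tripleIncl a i j l).1 = pullback.snd _ _ ≫ (c.overlap a i l).ι :=
      pullback.condition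
    rw [overComp_val, h]
    exact ((g.1 ≫ pullback.snd _ _) z).2

/-- The change of translate on triple overlaps. -/
noncomputable def transition' (i j l : ι) :
    pullback (c.overlap a i j).ι (c.overlap a i l).ι ⟶
      pullback (c.overlap a j l).ι (c.overlap a j i).ι :=
  pullback.lift
    (IsOpenImmersion.lift _ (c.tripleToChart a i j l).1 (c.tripleToChart_range a i j l))
    (pullback.fst _ _ ≫ c.transition a i j) (by
      rw [IsOpenImmersion.lift_fac, Category.assoc, transition_ι]
      rfl)

theorem transition'_incl (i j l : ι) :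
    c.transition' a i j l ≫ (c.tripleIncl a j l i).1 = (c.tripleToChart a i j l).1 := by
  change c.transition' a i j l ≫ pullback.fst _ _ ≫ _ = _
  rw [transition', pullback.lift_fst_assoc, IsOpenImmersion.lift_fac]

/-- The transition maps between translates satisfy the cocycle condition. -/
theorem cocycle (i j l : ι) :
    c.transition' a i j l ≫ c.transition' a j l i ≫ c.transition' a l i j = 𝟙 _ := by
  have hm : Mono (c.tripleIncl a i j l).1 :=
    inferInstanceAs (Mono (pullback.fst _ _ ≫ (c.overlap a i j).ι))
  let s : ∀ i j l, SchemeHomOver (c.tripleTo a i j l) (c.tripleTo a j l i) := fun i j l =>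
    ⟨c.transition' a i j l, by
      have h := congrArg (· ≫ specTo k c.Q) (c.transition'_incl a i j l)
      simp only [Category.assoc] at h
      rw [(c.tripleIncl a j l i).2] at h
      exact h.trans (c.tripleToChart a i j l).2⟩
  have key : ∀ i j l, overComp (s i j l) (c.tripleIncl a j l i) = c.tripleToChart a i j l :=
    fun i j l => Subtype.ext (c.transition'_incl a i j l)
  rw [← cancel_mono (c.tripleIncl a i j l).1, Category.id_comp]
  have : overComp (overComp (s i j l) (overComp (s j l i) (s l i j))) (c.tripleIncl a i j l) =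
      c.tripleIncl a i j l := by
    refine (c.chartVal (a i)).hom_ext _ _ fun A _ _ g => ?_
    rw [overComp_assoc, overComp_assoc, key, ← overComp_assoc g, ← overComp_assoc _ (s j l i),
      tripleToChart_val, overComp_assoc _ (s j l i), key, tripleToChart_val, overComp_assoc g, key,
      tripleToChart_val]
  exact congr(($this).1)

/-- The gluing data of the translates. -/
@[reducible] noncomputable def glueData : Scheme.GlueData.{u} where
  J := ι
  U _ := Spec (CommRingCat.of c.Q)
  V ij := c.overlap a ij.1 ij.2
  f i j := (c.overlap a i j).ι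
  f_mono _ _ := inferInstance
  f_id i := by
    change IsIso (c.overlap a i i).ι
    rw [overlap_self]
    exact inferInstanceAs (IsIso (Scheme.topIso _).hom)
  t := c.transition a
  t_id i := by
    rw [← cancel_mono (c.overlap a i i).ι, transition_ι, toChart_self, Category.id_comp]
    rfl
  t' := c.transition' a
  t_fac _ _ _ := pullback.lift_snd _ _ _
  cocycle := c.cocycle a
  f_open _ _ := inferInstance

end Chart

end Fermat.Agent.Jac.AlgFun
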