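import Fermat.Agent.Jac.Represent.Glue

/-!
# The affine points of the glued translates

`gluedVal` sends an affine point to its value; it is surjective when the translates cover.
-/

set_option autoImplicit false

universe u

open CategoryTheory CategoryTheory.Limits AlgebraicGeometry NeronModelInfra
open scoped TensorProduct

namespace Fermat.Agent.Jac.AlgFun

variable {k : Type u} [Field k] {F : AlgFun k}

/-- The inclusion of a basic open of an affine test scheme. -/
noncomputable def resOver (k : Type u) [CommRing k] {A : Type u} [CommRing A] [Algebra k A]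
    (f : A) : SchemeHomOver (specTo k (Localization.Away f)) (specTo k A) :=
  specMapOver (IsScalarTower.toAlgHom k A _)

instance resOver_isOpenImmersion {A : Type u} [CommRing A] [Algebra k A] (f : A) :
    IsOpenImmersion (resOver k f).1 :=
  inferInstanceAs (IsOpenImmersion
    (Spec.map (CommRingCat.ofHom (algebraMap A (Localization.Away f)))))

theorem range_resOver {A : Type u} [CommRing A] [Algebra k A] (f : A) :
    Set.range (resOver k f).1 = (PrimeSpectrum.basicOpen f : Set (PrimeSpectrum A)) :=
  PrimeSpectrum.localization_away_comap_range (Localization.Away f) f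

theorem exists_away_subset {A : Type u} [CommRing A] {U : Set (PrimeSpectrum A)} (hU : IsOpen U)
    {p : PrimeSpectrum A} (hp : p ∈ U) :
    ∃ f : A, f ∉ p.asIdeal ∧ (PrimeSpectrum.basicOpen f : Set (PrimeSpectrum A)) ⊆ U := by
  obtain ⟨_, ⟨f, rfl⟩, hpf, hsub⟩ :=
    PrimeSpectrum.isTopologicalBasis_basic_opens.exists_subset_of_mem_open hp hU
  exact ⟨f, hpf, hsub⟩

theorem exists_away_hom {k A : Type u} [CommRing k] [CommRing A] [Algebra k A] (f w : A)
    (h : IsUnit (algebraMap A (Localization.Away w) f)) :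
    ∃ φ : Localization.Away f →ₐ[k] Localization.Away w,
      φ.comp (IsScalarTower.toAlgHom k A _) = IsScalarTower.toAlgHom k A _ :=
  ⟨IsLocalization.Away.liftAlgHom (A := k)
      (f := IsScalarTower.toAlgHom k A (Localization.Away w)) f h,
    AlgHom.ext fun r => by simp [IsLocalization.Away.liftAlgHom]⟩

namespace Chart

variable (c : F.Chart) {ι : Type u} (a : ι → F.obj k)

theorem glueData_lift (i j : ι) {T : Scheme.{u}} (h h' : T ⟶ Spec (CommRingCat.of c.Q))
    (e : h ≫ (c.glueData a).ι i = h' ≫ (c.glueData a).ι j) :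
    ∃ l : T ⟶ (c.overlap a i j).toScheme,
      l ≫ (c.overlap a i j).ι = h ∧ l ≫ (c.toChart a i j).1 = h' := by
  obtain ⟨l, h1, h2⟩ := PullbackCone.IsLimit.lift' ((c.glueData a).vPullbackConeIsLimit i j) h h' e
  refine ⟨l, h1, ?_⟩
  rw [← transition_ι]
  exact h2

theorem glue_compat (i j : ι) :
    pullback.fst ((c.glueData a).ι i) ((c.glueData a).ι j) ≫ specTo k c.Q =
      pullback.snd ((c.glueData a).ι i) ((c.glueData a).ι j) ≫ specTo k c.Q := by
  obtain ⟨l, h1, h2⟩ := c.glueData_lift a i j _ _
    (pullback.condition (f := (c.glueData a).ι i) (g := (c.glueData a).ι j))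
  rw [← h1, ← h2, Category.assoc]
  refine Eq.trans ?_ (Category.assoc _ _ _).symm
  exact congrArg (l ≫ ·) (c.toChart a i j).2.symm

/-- The structure map of the glued translates. -/
noncomputable def gluedTo : (c.glueData a).glued ⟶ Spec (CommRingCat.of k) :=
  (c.glueData a).openCover.glueMorphisms (fun _ => specTo k c.Q) (c.glue_compat a)

theorem ι_gluedTo (i : ι) : (c.glueData a).ι i ≫ c.gluedTo a = specTo k c.Q :=
  (c.glueData a).openCover.ι_glueMorphisms _ (c.glue_compat a) i

/-- A translate inside the glued scheme. -/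
noncomputable def gluedIncl (i : ι) : SchemeHomOver (specTo k c.Q) (c.gluedTo a) :=
  ⟨(c.glueData a).ι i, c.ι_gluedTo a i⟩

theorem comp_gluedIncl_eq_iff (i j : ι) {T : Scheme.{u}} {t : T ⟶ Spec (CommRingCat.of k)}
    (h h' : SchemeHomOver t (specTo k c.Q)) :
    overComp h (c.gluedIncl a i) = overComp h' (c.gluedIncl a j) ↔
      ∀ (A : Type u) [CommRing A] [Algebra k A] (g : SchemeHomOver (specTo k A) t),
        (c.chartVal (a i)).val A (overComp g h) = (c.chartVal (a j)).val A (overComp g h') := by
  constructor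
  · intro e A _ _ g
    obtain ⟨l, h1, h2⟩ := c.glueData_lift a i j h.1 h'.1 congr(($e).1)
    let L : SchemeHomOver t ((c.overlap a i j).ι ≫ specTo k c.Q) :=
      ⟨l, by rw [← Category.assoc, h1, h.2]⟩
    rw [show h = overComp L (c.overlapIncl a i j) from Subtype.ext h1.symm,
      show h' = overComp L (c.toChart a i j) from Subtype.ext h2.symm,
      ← overComp_assoc, ← overComp_assoc]
    exact (c.toChart_val a i j (overComp g L)).symm
  · intro e
    have hr := c.range_subset_overlap a i j h fun A _ _ g => by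
      rw [e A g]
      exact c.mem_chartVal (a j) A _
    let L : SchemeHomOver t ((c.overlap a i j).ι ≫ specTo k c.Q) :=
      ⟨IsOpenImmersion.lift _ h.1 hr, by rw [IsOpenImmersion.lift_fac_assoc, h.2]⟩
    have h1 : overComp L (c.overlapIncl a i j) = h :=
      Subtype.ext (IsOpenImmersion.lift_fac _ _ _)
    have h2 : overComp L (c.toChart a i j) = h' :=
      (c.chartVal (a j)).hom_ext _ _ fun A _ _ g => by
        rw [← overComp_assoc, c.toChart_val a i j (overComp g L), overComp_assoc, h1, e A g]
    rw [← h1, ← h2]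
    apply Subtype.ext
    change (L.1 ≫ (c.overlap a i j).ι) ≫ _ = (L.1 ≫ (c.toChart a i j).1) ≫ _
    rw [Category.assoc, Category.assoc, ← transition_ι, Category.assoc]
    exact congrArg (L.1 ≫ ·) ((c.glueData a).glue_condition i j).symm

/-- An element is the value of a point of the glued scheme. -/
def IsVal {A : Type u} [CommRing A] [Algebra k A]
    (g : SchemeHomOver (specTo k A) (c.gluedTo a)) (x : F.obj A) : Prop :=
  ∀ (B : Type u) [CommRing B] [Algebra k B] (ψ : A →ₐ[k] B) (i : ι)
    (h : SchemeHomOver (specTo k B) (specTo k c.Q)),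
    overComp (specMapOver ψ) g = overComp h (c.gluedIncl a i) →
      F.map ψ x = (c.chartVal (a i)).val B h

theorem exists_local {A : Type u} [CommRing A] [Algebra k A]
    (g : SchemeHomOver (specTo k A) (c.gluedTo a)) (p : PrimeSpectrum A) :
    ∃ f : A, f ∉ p.asIdeal ∧ ∃ (i : ι)
      (h : SchemeHomOver (specTo k (Localization.Away f)) (specTo k c.Q)),
      overComp (resOver k f) g = overComp h (c.gluedIncl a i) := by
  obtain ⟨i, q, hq⟩ := (c.glueData a).ι_jointly_surjective (g.1 p)
  have : IsOpenImmersion ((c.glueData a).ι i) := Scheme.GlueData.ι_isOpenImmersion _ i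
  obtain ⟨f, hf, hsub⟩ := exists_away_subset
    (g.1.continuous.isOpen_preimage _ ((c.glueData a).ι i).opensRange.isOpen)
    (show p ∈ g.1 ⁻¹' Set.range ((c.glueData a).ι i) from ⟨q, hq⟩)
  have hr : Set.range ((resOver k f).1 ≫ g.1) ⊆ Set.range ((c.glueData a).ι i) := by
    refine Set.range_subset_iff.2 fun z => hsub ?_
    rw [← range_resOver (k := k)]
    exact Set.mem_range_self z
  refine ⟨f, hf, i, ⟨IsOpenImmersion.lift _ _ hr, ?_⟩, ?_⟩
  · refine (congrArg (_ ≫ ·) (c.ι_gluedTo a i).symm).trans ?_
    rw [IsOpenImmersion.lift_fac_assoc, Category.assoc, g.2, (resOver k f).2]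
  · exact Subtype.ext (IsOpenImmersion.lift_fac _ _ _).symm

theorem isVal_gluedIncl (i : ι) {A : Type u} [CommRing A] [Algebra k A]
    (h : SchemeHomOver (specTo k A) (specTo k c.Q)) :
    c.IsVal a (overComp h (c.gluedIncl a i)) ((c.chartVal (a i)).val A h) := by
  intro B _ _ ψ j h' e
  rw [← overComp_assoc, comp_gluedIncl_eq_iff] at e
  have := e B (specMapOver (AlgHom.id k B))
  rwa [show ∀ y : SchemeHomOver (specTo k B) (specTo k c.Q),
    overComp (specMapOver (AlgHom.id k B)) y = y from fun y => Subtype.ext (by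
      rw [overComp_val, specMapOver_id, Category.id_comp]), (c.chartVal (a i)).natural,
    show overComp (specMapOver (AlgHom.id k B)) h' = h' from Subtype.ext (by
      rw [overComp_val, specMapOver_id, Category.id_comp])] at this

variable {c a}

theorem IsVal.map {A B : Type u} [CommRing A] [Algebra k A] [CommRing B] [Algebra k B]
    {g : SchemeHomOver (specTo k A) (c.gluedTo a)} {x : F.obj A} (h : c.IsVal a g x)
    (φ : A →ₐ[k] B) : c.IsVal a (overComp (specMapOver φ) g) (F.map φ x) := by
  intro D _ _ ψ i q e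
  rw [F.map_map]
  refine h D _ i q (Eq.trans ?_ e)
  rw [← overComp_assoc]
  exact congrArg (fun z => overComp z g) (Subtype.ext (specMapOver_comp φ ψ))

theorem IsVal.unique (hF : F.IsSheaf) {A : Type u} [CommRing A] [Algebra k A]
    {g : SchemeHomOver (specTo k A) (c.gluedTo a)} {x y : F.obj A} (hx : c.IsVal a g x)
    (hy : c.IsVal a g y) : x = y := by
  choose f hf i h e using c.exists_local a g
  refine hF.ext_of_span (Set.range f)
    (span_eq_top_of_forall_prime _ fun p => ⟨f p, ⟨p, rfl⟩, hf p⟩) x y ?_
  rintro _ ⟨p, rfl⟩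
  exact (hx _ _ (i p) (h p) (e p)).trans (hy _ _ (i p) (h p) (e p)).symm

/-- Every affine point of the glued scheme has a value. -/
theorem exists_isVal (hF : F.IsSheaf) {A : Type u} [CommRing A] [Algebra k A]
    (g : SchemeHomOver (specTo k A) (c.gluedTo a)) : ∃ x, c.IsVal a g x := by
  choose f hf i h e using c.exists_local a g
  obtain ⟨s, hsub, hs⟩ := (Ideal.span_eq_top_iff_finite _).1
    (span_eq_top_of_forall_prime (Set.range f) fun p => ⟨f p, ⟨p, rfl⟩, hf p⟩)
  have hloc : ∀ f' : s, ∃ (i : ι)
      (h : SchemeHomOver (specTo k (Localization.Away (f' : A))) (specTo k c.Q)),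
      overComp (resOver k (f' : A)) g = overComp h (c.gluedIncl a i) := fun f' => by
    obtain ⟨f', hf'⟩ := f'
    obtain ⟨p, rfl⟩ := hsub hf'
    exact ⟨i p, h p, e p⟩
  choose i' h' e' using hloc
  have hval := fun f' : s => c.isVal_gluedIncl a (i' f') (h' f')
  obtain ⟨x, hx⟩ := hF.glue A s hs (fun f' => (c.chartVal (a (i' f'))).val _ (h' f'))
    fun f₁ f₂ B _ _ φ ψ hφψ => by
      rw [← (c.chartVal _).natural]
      symm
      refine hval f₂ B ψ (i' f₁) _ ?_
      rw [← e', overComp_assoc, ← e', ← overComp_assoc, ← overComp_assoc]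
      refine congrArg (fun z => overComp z g) (Subtype.ext ?_)
      change (specMapOver ψ).1 ≫ (specMapOver _).1 = (specMapOver φ).1 ≫ (specMapOver _).1
      rw [← specMapOver_comp, ← specMapOver_comp, hφψ]
  refine ⟨x, fun B _ _ ψ j q eq => ?_⟩
  refine hF.ext_of_span (ψ '' (s : Set A)) ?_ _ _ ?_
  · rw [show ψ '' (s : Set A) = ψ.toRingHom '' (s : Set A) from rfl, ← Ideal.map_span, hs,
      Ideal.map_top]
  rintro _ ⟨f', hf', rfl⟩
  refine Eq.trans ?_ ((c.chartVal (a j)).natural _ _ _ _)
  rw [res, F.map_map, ← awayMap_comp, ← map_res, hx ⟨f', hf'⟩]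
  refine hval ⟨f', hf'⟩ _ _ j _ ?_
  rw [← e' ⟨f', hf'⟩, overComp_assoc _ q, ← eq, ← overComp_assoc, ← overComp_assoc]
  refine congrArg (fun z => overComp z g) (Subtype.ext ?_)
  change (specMapOver _).1 ≫ (specMapOver _).1 = (specMapOver _).1 ≫ (specMapOver _).1
  rw [← specMapOver_comp, ← specMapOver_comp, awayMap_comp]

theorem IsVal.point_unique {A : Type u} [CommRing A] [Algebra k A]
    {g g' : SchemeHomOver (specTo k A) (c.gluedTo a)} {x : F.obj A} (hg : c.IsVal a g x)
    (hg' : c.IsVal a g' x) : g = g' := by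
  apply Subtype.ext
  choose f hf i h e using c.exists_local a g
  choose f' hf' i' h' e' using c.exists_local a g'
  refine Scheme.hom_ext_of_forall _ _ fun p₀ => ?_
  obtain ⟨p, rfl⟩ : ∃ p : PrimeSpectrum A, p = p₀ := ⟨p₀, rfl⟩
  obtain ⟨w, hw, hu, hu'⟩ : ∃ w : A, w ∉ p.asIdeal ∧
      IsUnit (algebraMap A (Localization.Away w) (f p)) ∧
      IsUnit (algebraMap A (Localization.Away w) (f' p)) := by
    refine ⟨f p * f' p, fun hh => (p.2.mem_or_mem hh).elim (hf p) (hf' p), ?_⟩
    rw [← IsUnit.mul_iff, ← map_mul]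
    exact IsLocalization.Away.algebraMap_isUnit _
  obtain ⟨φ, hφ⟩ := exists_away_hom (k := k) (f p) w hu
  obtain ⟨φ', hφ'⟩ := exists_away_hom (k := k) (f' p) w hu'
  have k1 : resOver k w = overComp (specMapOver φ) (resOver k (f p)) :=
    Subtype.ext (by rw [overComp_val, resOver, resOver, ← specMapOver_comp, hφ])
  have k2 : resOver k w = overComp (specMapOver φ') (resOver k (f' p)) :=
    Subtype.ext (by rw [overComp_val, resOver, resOver, ← specMapOver_comp, hφ'])
  have eg : overComp (resOver k w) g = overComp (resOver k w) g' := by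
    refine Eq.trans (b := overComp (overComp (specMapOver φ) (h p)) (c.gluedIncl a (i p))) ?_
      (Eq.trans (b := overComp (overComp (specMapOver φ') (h' p)) (c.gluedIncl a (i' p))) ?_ ?_)
    · rw [k1]
      exact (overComp_assoc _ _ _).trans ((congrArg (overComp (specMapOver φ)) (e p)).trans
        (overComp_assoc _ _ _).symm)
    rotate_left
    · rw [k2]
      exact ((overComp_assoc _ _ _).trans ((congrArg (overComp (specMapOver φ')) (e' p)).trans
        (overComp_assoc _ _ _).symm)).symm
    rw [comp_gluedIncl_eq_iff]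
    intro B _ _ q
    rw [← specMapOver_algOf q, ← overComp_assoc, ← overComp_assoc]
    refine Eq.trans (hg B ((algOf q).comp (IsScalarTower.toAlgHom k A _)) (i p) _ ?_).symm
      (hg' B ((algOf q).comp (IsScalarTower.toAlgHom k A _)) (i' p) _ ?_)
    · rw [overComp_assoc _ (h p), ← e, overComp_assoc, ← overComp_assoc _ (resOver k (f p)),
        ← k1, ← overComp_assoc]
      exact congrArg (fun z => overComp z g) (Subtype.ext (specMapOver_comp _ _))
    · rw [overComp_assoc _ (h' p), ← e', overComp_assoc, ← overComp_assoc _ (resOver k (f' p)),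
        ← k2, ← overComp_assoc]
      exact congrArg (fun z => overComp z g') (Subtype.ext (specMapOver_comp _ _))
  refine ⟨(resOver k w).1.opensRange, ?_, ?_⟩
  · change p ∈ Set.range (resOver k w).1
    rw [range_resOver]
    exact hw
  · rw [← cancel_epi (resOver k w).1.isoOpensRange.hom]
    simp only [← Category.assoc, Scheme.Hom.isoOpensRange_hom_ι]
    exact congr(($eg).1)

variable (c a)

/-- The values of the affine points of the glued translates. -/
noncomputable def gluedVal (hF : F.IsSheaf) : F.PointVal (c.gluedTo a) where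
  val _ _ _ g := (exists_isVal hF g).choose
  natural _ _ _ _ _ _ φ g :=
    (exists_isVal hF _).choose_spec.unique hF ((exists_isVal hF g).choose_spec.map φ)
  injective _ _ _ g g' h :=
    (exists_isVal hF g).choose_spec.point_unique
      ((congrArg (c.IsVal a g') h).mpr (exists_isVal hF g').choose_spec)

theorem gluedVal_gluedIncl (hF : F.IsSheaf) (i : ι) {A : Type u} [CommRing A] [Algebra k A]
    (h : SchemeHomOver (specTo k A) (specTo k c.Q)) :
    (c.gluedVal a hF).val A (overComp h (c.gluedIncl a i)) = (c.chartVal (a i)).val A h :=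
  (exists_isVal hF _).choose_spec.unique hF (c.isVal_gluedIncl a i h)

/-- If the translates cover, every value comes from a point of the glued scheme. -/
theorem gluedVal_surjective (hF : F.IsSheaf)
    (hcov : ∀ (K : Type u) [Field K] [IsAlgClosed K] [Algebra k K] (x : F.obj K),
      ∃ i, c.mem K (shiftVal x (a i)))
    (A : Type u) [CommRing A] [Algebra k A] : Function.Surjective ((c.gluedVal a hF).val A) := by
  intro x
  have hloc : ∀ p : PrimeSpectrum A, ∃ f : A, f ∉ p.asIdeal ∧ ∃ (i : ι)
      (h : SchemeHomOver (specTo k (Localization.Away f)) (specTo k c.Q)),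
      (c.chartVal (a i)).val _ h = F.res f x := fun p => by
    obtain ⟨i, hi⟩ := hcov _ (F.map (geomPt p) x)
    rw [← map_shiftVal] at hi
    obtain ⟨f, hf, hm⟩ := c.exists_away (shiftVal x (a i)) hi
    rw [res, map_shiftVal] at hm
    exact ⟨f, hf, i, c.exists_chartVal_eq (a i) _ hm⟩
  choose f hf i h e using hloc
  obtain ⟨g, hg⟩ := (c.gluedVal a hF).exists_hom_of_cover
    (t := specTo k A) (fun p => Localization.Away (f p)) (fun p => resOver k (f p))
    (fun p => ⟨p, by rw [range_resOver]; exact hf p⟩)
    (fun p => overComp (h p) (c.gluedIncl a (i p))) fun p q B _ _ φ ψ hφψ => by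
      rw [gluedVal_gluedIncl, gluedVal_gluedIncl, e, e, map_res, map_res]
      congr 2
      have h' : specMapOver (φ.comp (IsScalarTower.toAlgHom k A (Localization.Away (f p)))) =
          specMapOver (ψ.comp (IsScalarTower.toAlgHom k A (Localization.Away (f q)))) :=
        Subtype.ext (by rw [specMapOver_comp, specMapOver_comp]; exact hφψ)
      simpa only [algOf_specMapOver] using congrArg algOf h'
  refine ⟨g, hF.ext_of_span (Set.range f)
    (span_eq_top_of_forall_prime _ fun p => ⟨f p, ⟨p, rfl⟩, hf p⟩) _ _ ?_⟩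
  rintro _ ⟨p, rfl⟩
  refine Eq.trans ?_ (e p)
  rw [res, ← (c.gluedVal a hF).natural, ← gluedVal_gluedIncl c a hF]
  exact congrArg _ (hg p)

end Chart

end Fermat.Agent.Jac.AlgFun
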