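import Fermat.Agent.Jac.Represent.Basic

/-!
# The locus of a chart inside an affine test scheme, and descent lemmas
-/

set_option autoImplicit false

universe u

open CategoryTheory AlgebraicGeometry NeronModelInfra
open scoped TensorProduct

namespace Fermat.Agent.Jac.AlgFun

variable {k : Type u} [Field k] {F : AlgFun k}

section Ext

theorem map_res (F : AlgFun k) {A B : Type u} [CommRing A] [Algebra k A] [CommRing B]
    [Algebra k B] {f : A} (φ : Localization.Away f →ₐ[k] B) (x : F.obj A) :
    F.map φ (F.res f x) = F.map (φ.comp (IsScalarTower.toAlgHom k A _)) x :=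
  F.map_map _ _ _

/-- The map between basic opens induced by a map of algebras. -/
noncomputable def awayMap {A B : Type u} [CommRing A] [Algebra k A] [CommRing B] [Algebra k B]
    (ψ : A →ₐ[k] B) (f : A) : Localization.Away f →ₐ[k] Localization.Away (ψ f) :=
  IsLocalization.Away.liftAlgHom (A := k) (f := (IsScalarTower.toAlgHom k B _).comp ψ) f
    (IsLocalization.Away.algebraMap_isUnit (ψ f))

theorem awayMap_comp {A B : Type u} [CommRing A] [Algebra k A] [CommRing B] [Algebra k B]
    (ψ : A →ₐ[k] B) (f : A) :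
    (awayMap ψ f).comp (IsScalarTower.toAlgHom k A _) =
      (IsScalarTower.toAlgHom k B _).comp ψ :=
  AlgHom.ext fun r => by simp [awayMap, IsLocalization.Away.liftAlgHom]

theorem IsSheaf.ext_of_span (hF : F.IsSheaf) {A : Type u} [CommRing A] [Algebra k A] (S : Set A)
    (hS : Ideal.span S = ⊤) (x y : F.obj A) (h : ∀ f ∈ S, F.res f x = F.res f y) : x = y := by
  obtain ⟨s, hsS, hs⟩ := (Ideal.span_eq_top_iff_finite S).1 hS
  exact hF.ext A s hs x y fun f hf => h f (hsS hf)

theorem span_eq_top_of_forall_prime {A : Type u} [CommRing A] (S : Set A)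
    (h : ∀ p : PrimeSpectrum A, ∃ f ∈ S, f ∉ p.asIdeal) : Ideal.span S = ⊤ := by
  by_contra hne
  obtain ⟨M, hM, hle⟩ := Ideal.exists_le_maximal _ hne
  obtain ⟨f, hf, hf'⟩ := h ⟨M, hM.isPrime⟩
  exact hf' (hle (Ideal.subset_span hf))

end Ext

theorem exists_lift_algebraicClosure {κ K : Type u} [Field κ] [Algebra k κ] [Field K]
    [IsAlgClosed K] [Algebra k K] (e : κ →ₐ[k] K) :
    ∃ E : AlgebraicClosure κ →ₐ[k] K, ∀ r, E (algebraMap κ _ r) = e r := by
  let : Algebra κ K := e.toRingHom.toAlgebra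
  let E₀ : AlgebraicClosure κ →ₐ[κ] K := IsAlgClosed.lift
  refine ⟨⟨E₀.toRingHom, fun r => ?_⟩, fun r => E₀.commutes r⟩
  rw [IsScalarTower.algebraMap_apply k κ (AlgebraicClosure κ)]
  exact (E₀.commutes _).trans (e.commutes r)

namespace Chart

variable (c : F.Chart)

theorem mem_descend {K L : Type u} [Field K] [Algebra k K] [Field L] [IsAlgClosed L] [Algebra k L]
    (ψ : K →ₐ[k] L) (x : F.obj K) (h : c.mem L (F.map ψ x)) : c.mem K x := by
  obtain ⟨f, hf, hmem⟩ := c.mem_away K x L ψ h
  have hu : IsUnit f := isUnit_iff_ne_zero.2 fun h0 => hf (by simp [h0])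
  let back : Localization.Away f →ₐ[k] K :=
    IsLocalization.Away.liftAlgHom (A := k) (f := AlgHom.id k K) f hu
  have h1 := c.mem_map back _ hmem
  rw [map_res] at h1
  rwa [show back.comp (IsScalarTower.toAlgHom k K _) = AlgHom.id k K from
    AlgHom.ext fun r => by simp [back, IsLocalization.Away.liftAlgHom], F.map_id] at h1

/-- The map to an algebraic closure of the residue field at a prime. -/
noncomputable def geomPt {A : Type u} [CommRing A] [Algebra k A] (p : PrimeSpectrum A) :
    A →ₐ[k] AlgebraicClosure p.asIdeal.ResidueField :=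
  (IsScalarTower.toAlgHom k p.asIdeal.ResidueField _).comp
    (IsScalarTower.toAlgHom k A p.asIdeal.ResidueField)

theorem geomPt_eq_zero {A : Type u} [CommRing A] [Algebra k A] (p : PrimeSpectrum A) {f : A} :
    geomPt (k := k) p f = 0 ↔ f ∈ p.asIdeal := by
  simp [geomPt, Ideal.algebraMap_residueField_eq_zero]

/-- The set of points where an element lies in the chart. -/
def locus {A : Type u} [CommRing A] [Algebra k A] (x : F.obj A) : Set (PrimeSpectrum A) :=
  {p | c.mem _ (F.map (geomPt p) x)}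

theorem mem_iff_mem_locus {A : Type u} [CommRing A] [Algebra k A] (x : F.obj A)
    {K : Type u} [Field K] [IsAlgClosed K] [Algebra k K] (φ : A →ₐ[k] K) (p : PrimeSpectrum A)
    (hp : RingHom.ker φ = p.asIdeal) : c.mem K (F.map φ x) ↔ p ∈ c.locus x := by
  have h2 : p.asIdeal.primeCompl ≤ (IsUnit.submonoid K).comap φ := fun y hy => by
    refine isUnit_iff_ne_zero.2 fun h0 => hy ?_
    rw [← hp]
    exact h0
  let e : p.asIdeal.ResidueField →ₐ[k] K :=
    Ideal.ResidueField.liftₐ p.asIdeal φ hp.ge h2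
  obtain ⟨E, hE'⟩ := exists_lift_algebraicClosure e
  have hE : φ = E.comp (geomPt p) := AlgHom.ext fun r => by
    change φ r = E (algebraMap p.asIdeal.ResidueField _ (algebraMap A p.asIdeal.ResidueField r))
    rw [hE']
    exact (Ideal.ResidueField.liftₐ_algebraMap _ φ hp.ge h2 r).symm
  constructor
  · intro h
    rw [hE, ← F.map_map] at h
    exact c.mem_descend E _ h
  · intro h
    rw [hE, ← F.map_map]
    exact c.mem_map _ _ h

theorem locus_map {A B : Type u} [CommRing A] [Algebra k A] [CommRing B] [Algebra k B]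
    (ψ : A →ₐ[k] B) (x : F.obj A) (q : PrimeSpectrum B) :
    q ∈ c.locus (F.map ψ x) ↔ PrimeSpectrum.comap ψ.toRingHom q ∈ c.locus x := by
  rw [← c.mem_iff_mem_locus x ((geomPt q).comp ψ) _ ?_, ← F.map_map]
  · rfl
  · ext r
    simpa using geomPt_eq_zero q

theorem locus_eq_univ_iff {A : Type u} [CommRing A] [Algebra k A] (x : F.obj A) :
    (∀ p, p ∈ c.locus x) ↔ c.mem A x := by
  refine ⟨fun h => c.mem_of_fibres A x fun K _ _ _ φ => ?_, fun h p => c.mem_map _ _ h⟩
  exact (c.mem_iff_mem_locus x φ ⟨RingHom.ker φ, RingHom.ker_isPrime _⟩ rfl).2 (h _)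

theorem exists_away {A : Type u} [CommRing A] [Algebra k A] (x : F.obj A) {p : PrimeSpectrum A}
    (hp : p ∈ c.locus x) : ∃ f : A, f ∉ p.asIdeal ∧ c.mem _ (F.res f x) := by
  obtain ⟨f, hf, hm⟩ := c.mem_away A x _ (geomPt p) hp
  exact ⟨f, fun h => hf ((geomPt_eq_zero p).2 h), hm⟩

/-- The locus of a chart is open. -/
theorem isOpen_locus {A : Type u} [CommRing A] [Algebra k A] (x : F.obj A) :
    IsOpen (c.locus x) := by
  refine isOpen_iff_forall_mem_open.2 fun p hp => ?_
  obtain ⟨f, hf, hm⟩ := c.exists_away x hp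
  refine ⟨PrimeSpectrum.basicOpen f, ?_, (PrimeSpectrum.basicOpen f).isOpen, hf⟩
  intro q hq
  rw [← PrimeSpectrum.localization_away_comap_range (Localization.Away f) f] at hq
  obtain ⟨q', rfl⟩ := hq
  exact (c.locus_map (IsScalarTower.toAlgHom k A _) x q').1
    ((c.locus_eq_univ_iff _).2 hm q')

end Chart

end Fermat.Agent.Jac.AlgFun
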