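import Fermat.Agent.Jac.Represent.Local

/-!
# Morphisms to a scheme whose affine points inject into a functor

`AlgFun.PointVal.exists_hom` turns natural families of values into morphisms.
-/

set_option autoImplicit false

universe u v

open CategoryTheory CategoryTheory.Limits AlgebraicGeometry NeronModelInfra
open scoped TensorProduct

namespace Fermat.Agent.Jac

section OverComp

variable {B X Y Z : Scheme.{u}} {x : X ⟶ B} {y : Y ⟶ B} {z : Z ⟶ B}

/-- Composition of morphisms over a base. -/
def overComp (a : SchemeHomOver x y) (b : SchemeHomOver y z) : SchemeHomOver x z :=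
  ⟨a.1 ≫ b.1, by rw [Category.assoc, b.2, a.2]⟩

theorem overComp_val (a : SchemeHomOver x y) (b : SchemeHomOver y z) :
    (overComp a b).1 = a.1 ≫ b.1 := rfl

theorem overComp_assoc {W : Scheme.{u}} {w : W ⟶ B} (a : SchemeHomOver w x)
    (b : SchemeHomOver x y) (c : SchemeHomOver y z) :
    overComp (overComp a b) c = overComp a (overComp b c) :=
  Subtype.ext (Category.assoc _ _ _)

end OverComp

variable {k : Type u} [Field k]

/-- An algebra structure on a ring from a morphism of its spectrum to the base. -/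
theorem exists_algebra_specTo_of (A : CommRingCat.{u}) (w : Spec A ⟶ Spec (CommRingCat.of k)) :
    ∃ _ : Algebra k A, specTo k A = w :=
  ⟨(Spec.preimage w).hom.toAlgebra, Spec.map_preimage w⟩

/-- An affine point through every point of a scheme over `k`. -/
theorem exists_affine_point {T : Scheme.{u}} (t : T ⟶ Spec (CommRingCat.of k)) (p : T) :
    ∃ (A : Type u) (_ : CommRing A) (_ : Algebra k A) (g : SchemeHomOver (specTo k A) t)
      (_ : IsOpenImmersion g.1), p ∈ Set.range g.1 := by
  obtain ⟨q, hq⟩ := T.affineOpenCover.covers p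
  obtain ⟨alg, h⟩ := exists_algebra_specTo_of (k := k) _
    (T.affineOpenCover.f (T.affineOpenCover.idx p) ≫ t)
  exact ⟨_, inferInstance, alg, ⟨T.affineOpenCover.f (T.affineOpenCover.idx p), h.symm⟩,
    T.affineOpenCover.map_prop _, q, hq⟩

/-- A natural injective map from the affine points of a scheme to a functor. -/
structure AlgFun.PointVal (F : AlgFun k) {Y : Scheme.{u}} (y : Y ⟶ Spec (CommRingCat.of k)) where
  val : ∀ (A : Type u) [CommRing A] [Algebra k A], SchemeHomOver (specTo k A) y → F.obj A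
  natural : ∀ (A A' : Type u) [CommRing A] [Algebra k A] [CommRing A'] [Algebra k A']
    (φ : A →ₐ[k] A') (g : SchemeHomOver (specTo k A) y),
    val A' (overComp (specMapOver φ) g) = F.map φ (val A g)
  injective : ∀ (A : Type u) [CommRing A] [Algebra k A], Function.Injective (val A)

namespace AlgFun.PointVal

variable {F : AlgFun k} {Y : Scheme.{u}} {y : Y ⟶ Spec (CommRingCat.of k)} (P : F.PointVal y)
  {T : Scheme.{u}} {t : T ⟶ Spec (CommRingCat.of k)}

theorem val_comp (A A' : Type u) [CommRing A] [Algebra k A] [CommRing A'] [Algebra k A']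
    (g' : SchemeHomOver (specTo k A') (specTo k A)) (g : SchemeHomOver (specTo k A) y) :
    P.val A' (overComp g' g) = F.map (algOf g') (P.val A g) := by
  rw [← P.natural, specMapOver_algOf]

include P in
theorem hom_ext (φ ψ : SchemeHomOver t y)
    (h : ∀ (A : Type u) [CommRing A] [Algebra k A] (g : SchemeHomOver (specTo k A) t),
      P.val A (overComp g φ) = P.val A (overComp g ψ)) : φ = ψ := by
  apply Subtype.ext
  refine Scheme.hom_ext_of_forall _ _ fun p => ?_
  obtain ⟨A, _, _, g, hg, hp⟩ := exists_affine_point t p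
  refine ⟨g.1.opensRange, hp, ?_⟩
  rw [← cancel_epi g.1.isoOpensRange.hom]
  simp only [← Category.assoc, Scheme.Hom.isoOpensRange_hom_ι]
  exact congr(($(P.injective A (h A g))).1)

theorem exists_hom_of_cover {ι : Type v} (A : ι → Type u) [∀ i, CommRing (A i)]
    [∀ i, Algebra k (A i)] (f : ∀ i, SchemeHomOver (specTo k (A i)) t)
    [∀ i, IsOpenImmersion (f i).1] (hf : ∀ p : T, ∃ i, p ∈ Set.range (f i).1)
    (g : ∀ i, SchemeHomOver (specTo k (A i)) y)
    (hg : ∀ (i j : ι) (B : Type u) [CommRing B] [Algebra k B] (φ : A i →ₐ[k] B)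
      (ψ : A j →ₐ[k] B), (specMapOver φ).1 ≫ (f i).1 = (specMapOver ψ).1 ≫ (f j).1 →
      F.map φ (P.val (A i) (g i)) = F.map ψ (P.val (A j) (g j))) :
    ∃ φ : SchemeHomOver t y, ∀ i, overComp (f i) φ = g i := by
  choose idx hidx using hf
  let 𝒰 : T.OpenCover :=
    { I₀ := ι
      X := fun i => Spec (CommRingCat.of (A i))
      f := fun i => (f i).1
      mem₀ := by
        rw [Scheme.presieve₀_mem_precoverage_iff]
        exact ⟨fun p => ⟨idx p, hidx p⟩, fun i => inferInstanceAs (IsOpenImmersion (f i).1)⟩ }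
  have hc : ∀ i j, pullback.fst (𝒰.f i) (𝒰.f j) ≫ (g i).1 =
      pullback.snd (𝒰.f i) (𝒰.f j) ≫ (g j).1 := fun i j => by
    let a : SchemeHomOver (pullback.fst (f i).1 (f j).1 ≫ specTo k (A i)) (specTo k (A i)) :=
      ⟨pullback.fst _ _, rfl⟩
    let b : SchemeHomOver (pullback.fst (f i).1 (f j).1 ≫ specTo k (A i)) (specTo k (A j)) :=
      ⟨pullback.snd _ _,
        ((congrArg (pullback.snd (f i).1 (f j).1 ≫ ·) (f j).2.symm).trans
          (pullback.condition_assoc t).symm).trans
          (congrArg (pullback.fst (f i).1 (f j).1 ≫ ·) (f i).2)⟩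
    have := P.hom_ext (overComp a (g i)) (overComp b (g j)) fun B _ _ h => by
      rw [← overComp_assoc, ← overComp_assoc, val_comp, val_comp]
      refine hg i j B _ _ ?_
      rw [specMapOver_algOf, specMapOver_algOf]
      change (h.1 ≫ pullback.fst _ _) ≫ _ = (h.1 ≫ pullback.snd _ _) ≫ _
      rw [Category.assoc, Category.assoc, pullback.condition]
    exact congr(($this).1)
  refine ⟨⟨𝒰.glueMorphisms (fun i => (g i).1) hc, 𝒰.hom_ext _ _ fun i => ?_⟩, fun i => ?_⟩
  · rw [Scheme.Cover.ι_glueMorphisms_assoc]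
    exact (g i).2.trans (f i).2.symm
  · exact Subtype.ext (𝒰.ι_glueMorphisms _ hc i)

/-- A natural family of values lying in the image of the points is induced by a morphism. -/
theorem exists_hom
    (e : ∀ (A : Type u) [CommRing A] [Algebra k A], SchemeHomOver (specTo k A) t → F.obj A)
    (he : ∀ (A A' : Type u) [CommRing A] [Algebra k A] [CommRing A'] [Algebra k A']
      (φ : A →ₐ[k] A') (g : SchemeHomOver (specTo k A) t),
      e A' (overComp (specMapOver φ) g) = F.map φ (e A g))
    (hmem : ∀ (A : Type u) [CommRing A] [Algebra k A] (g : SchemeHomOver (specTo k A) t),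
      ∃ h, P.val A h = e A g) :
    ∃ φ : SchemeHomOver t y, ∀ (A : Type u) [CommRing A] [Algebra k A]
      (g : SchemeHomOver (specTo k A) t), P.val A (overComp g φ) = e A g := by
  choose A instC instA f hfo hf using exists_affine_point (k := k) t
  choose g hg using fun p => hmem (A p) (f p)
  obtain ⟨φ, hφ⟩ := P.exists_hom_of_cover A f (fun p => ⟨p, hf p⟩) g fun i j B _ _ α β h => by
    rw [hg, hg, ← he, ← he]
    exact congrArg (e B) (Subtype.ext h)
  refine ⟨φ, fun B _ _ q => ?_⟩
  obtain ⟨r, hr⟩ := hmem B q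
  suffices overComp q φ = r by rw [this, hr]
  apply Subtype.ext
  refine Scheme.hom_ext_of_forall _ _ fun b => ?_
  let U : (Spec (CommRingCat.of B)).Opens := q.1 ⁻¹ᵁ (f (q.1 b)).1.opensRange
  refine ⟨U, hf (q.1 b), ?_⟩
  let ι' : SchemeHomOver (U.ι ≫ specTo k B) (specTo k B) := ⟨U.ι, rfl⟩
  have hrange : Set.range (U.ι ≫ q.1) ⊆ Set.range (f (q.1 b)).1 :=
    Set.range_subset_iff.2 fun z => z.2
  let l : SchemeHomOver (U.ι ≫ specTo k B) (specTo k (A (q.1 b))) :=
    ⟨IsOpenImmersion.lift (f (q.1 b)).1 (U.ι ≫ q.1) hrange, by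
      refine ((congrArg (_ ≫ ·) (f (q.1 b)).2.symm).trans ?_)
      rw [IsOpenImmersion.lift_fac_assoc, Category.assoc, q.2]⟩
  have hl : overComp l (f (q.1 b)) = overComp ι' q := Subtype.ext (IsOpenImmersion.lift_fac _ _ _)
  suffices overComp ι' (overComp q φ) = overComp ι' r from congr(($this).1)
  refine P.hom_ext _ _ fun D _ _ d => ?_
  rw [← overComp_assoc ι' q, ← hl, overComp_assoc l, hφ, ← overComp_assoc, val_comp, hg,
    ← overComp_assoc d ι', val_comp, hr, ← he, ← he, specMapOver_algOf, specMapOver_algOf,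
    overComp_assoc, hl, overComp_assoc]

end AlgFun.PointVal

end Fermat.Agent.Jac
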